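import Fermat.Agent.StarkZero.Real
import Fermat.Agent.CycloGrowth.LValue
import Fermat.Agent.ConductorDiscr.AbelianBounds
import Mathlib.NumberTheory.EulerProduct.DirichletLSeries

/-!
# Elementary bounds near `1`

`ζ_K σ ≤ ζ(σ)^n`, so at `σ = 1 + 1/L` the completed zeta function is `O(√|d| L^n)`: hence the
upper bound for `h R`, and a lower bound for `1 - β` at a zero `β` in terms of `h R`.
-/

set_option autoImplicit false
set_option linter.style.haveILetI false

noncomputable section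

universe u

open NumberField InfinitePlace Module Filter Topology IsDedekindDomain Ideal
open FA.HeckeBS FA.StarkOdlyzko FA.StarkZero
open scoped nonZeroDivisors Classical Real

namespace FA.StarkEff

theorem norm_riemannZeta_le {σ : ℝ} (hσ : 1 < σ) : ‖riemannZeta (σ : ℂ)‖ ≤ 1 + 1 / (σ - 1) := by
  refine le_trans (le_of_eq ?_) (FA.CycloGrowth.tsum_one_div_le hσ)
  rw [zeta_eq_tsum_one_div_nat_add_one_cpow (by simpa using hσ),
    show (∑' n : ℕ, 1 / ((n : ℂ) + 1) ^ (σ : ℂ)) = ((∑' n : ℕ, 1 / ((n : ℝ) + 1) ^ σ : ℝ) : ℂ) by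
      rw [Complex.ofReal_tsum]
      refine tsum_congr fun n => ?_
      rw [Complex.ofReal_div, Complex.ofReal_one, Complex.ofReal_cpow (by positivity)]
      push_cast
      rfl,
    Complex.norm_real, Real.norm_of_nonneg (tsum_nonneg fun n => by positivity)]

variable (K : Type u) [Field K] [NumberField K]

/-- **`ζ_K σ ≤ ζ(σ)^n`.** -/
theorem norm_dedekindZeta_le {σ : ℝ} (hσ : 1 < σ) :
    ‖dedekindZeta K (σ : ℂ)‖ ≤ (1 + 1 / (σ - 1)) ^ finrank ℚ K := by
  refine le_trans ?_ (pow_le_pow_left₀ (norm_nonneg _) (norm_riemannZeta_le hσ) _)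
  have hs : 1 < ((σ : ℂ)).re := by simpa using hσ
  have hlim : Tendsto (fun T : Finset (HeightOneSpectrum (𝓞 K)) =>
      ‖∏ v ∈ T, (1 - ((absNorm v.asIdeal : ℕ) : ℂ) ^ (-(σ : ℂ)))⁻¹‖) atTop
        (𝓝 ‖dedekindZeta K (σ : ℂ)‖) :=
    Filter.Tendsto.norm (FA.AbelianZeta.hasProd_primes (F := K) hs)
  refine le_of_tendsto hlim (Eventually.of_forall fun T => ?_)
  -- the factor of a natural number
  set g : ℕ → ℝ := fun m => (1 - (m : ℝ) ^ (-σ))⁻¹
  have hlt : ∀ m : ℕ, 2 ≤ m → (m : ℝ) ^ (-σ) < 1 := fun m hm =>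
    Real.rpow_lt_one_of_one_lt_of_neg (by exact_mod_cast hm) (by linarith)
  have hg1 : ∀ m : ℕ, 2 ≤ m → 1 ≤ g m := fun m hm =>
    (one_le_inv₀ (sub_pos.2 (hlt m hm))).2 (sub_le_self _ (Real.rpow_nonneg (Nat.cast_nonneg _) _))
  have hnorm : ∀ m : ℕ, 2 ≤ m → ‖(1 - (m : ℂ) ^ (-(σ : ℂ)))⁻¹‖ = g m := fun m hm => by
    rw [show (m : ℂ) = ((m : ℝ) : ℂ) by simp, ← Complex.ofReal_neg,
      ← Complex.ofReal_cpow (Nat.cast_nonneg _), ← Complex.ofReal_one, ← Complex.ofReal_sub,
      ← Complex.ofReal_inv, Complex.norm_real, Real.norm_of_nonneg (zero_le_one.trans (hg1 m hm))]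
  choose f hfp hf using FA.Ext.exists_rat_prime_mem (K := K)
  have hNf : ∀ v, f v ≤ absNorm v.asIdeal := fun v => by
    have hdvd : absNorm v.asIdeal ∣ f v ^ finrank ℚ K := by
      have := map_dvd absNorm (Ideal.dvd_span_singleton.mpr (hf v))
      rwa [Ideal.absNorm_span_singleton, show (f v : 𝓞 K) = algebraMap ℤ (𝓞 K) (f v) by simp,
        Algebra.norm_algebraMap, Int.natAbs_pow, Int.natAbs_natCast, RingOfIntegers.rank] at this
    obtain ⟨k, -, hk⟩ := (Nat.dvd_prime_pow (hfp v)).mp hdvd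
    rw [hk]
    refine le_self_pow (hfp v).one_le fun h0 => ?_
    have := FA.Ext.two_le_absNorm v
    rw [hk, h0, pow_zero] at this
    omega
  have hmono : ∀ v, g (absNorm v.asIdeal) ≤ g (f v) := fun v =>
    inv_anti₀ (sub_pos.2 (hlt _ (hfp v).two_le)) (sub_le_sub_left
      (Real.rpow_le_rpow_of_nonpos (Nat.cast_pos.2 (hfp v).pos) (Nat.cast_le.2 (hNf v)) (by linarith)) 1)
  rw [norm_prod, Finset.prod_congr rfl fun v _ => hnorm _ (FA.Ext.two_le_absNorm v)]
  refine (Finset.prod_le_prod (fun v _ => zero_le_one.trans (hg1 _ (FA.Ext.two_le_absNorm v)))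
    fun v _ => hmono v).trans ?_
  rw [← Finset.prod_fiberwise_of_maps_to (g := f) (t := T.image f)
    fun i hi => Finset.mem_image_of_mem f hi]
  have hS : ∀ m ∈ T.image f, m.Prime := fun m hm => by
    obtain ⟨v, -, rfl⟩ := Finset.mem_image.1 hm; exact hfp v
  calc ∏ m ∈ T.image f, ∏ v ∈ T.filter (fun v => f v = m), g (f v)
      ≤ ∏ m ∈ T.image f, g m ^ finrank ℚ K := Finset.prod_le_prod
        (fun m _ => Finset.prod_nonneg fun v _ => zero_le_one.trans (hg1 _ (hfp v).two_le))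
        fun m hm => by
          rw [Finset.prod_congr rfl fun v hv => by rw [(Finset.mem_filter.mp hv).2], Finset.prod_const]
          exact pow_le_pow_right₀ (hg1 m (hS m hm).two_le) (card_over_le T f hfp hf m)
    _ = (∏ m ∈ T.image f, g m) ^ finrank ℚ K := Finset.prod_pow _ _ _
    _ ≤ _ := by
      refine pow_le_pow_left₀ (Finset.prod_nonneg fun m hm => zero_le_one.trans (hg1 m (hS m hm).two_le)) ?_ _
      have hlimQ : Tendsto (fun U : Finset Nat.Primes => ‖∏ p ∈ U, (1 - (p : ℂ) ^ (-(σ : ℂ)))⁻¹‖) atTop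
          (𝓝 ‖riemannZeta (σ : ℂ)‖) :=
        Filter.Tendsto.norm (riemannZeta_eulerProduct_hasProd hs)
      set S : Finset Nat.Primes := (T.image f).subtype Nat.Prime with hSdef
      have hSg : ∏ m ∈ T.image f, g m = ∏ p ∈ S, g p := (Finset.prod_subtype_of_mem g hS).symm
      refine ge_of_tendsto hlimQ ((eventually_ge_atTop S).mono fun U hU => ?_)
      rw [norm_prod, Finset.prod_congr rfl fun (p : Nat.Primes) _ => hnorm p p.2.two_le,
        ← Finset.prod_sdiff hU, hSg]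
      exact le_mul_of_one_le_left (Finset.prod_nonneg fun p _ => zero_le_one.trans (hg1 p p.2.two_le))
        (Finset.one_le_prod fun p _ => hg1 p p.2.two_le)

theorem gR_le_one {x : ℝ} (hx : 1 ≤ x) (hx2 : x ≤ 2) : gR x ≤ 1 := by
  have hG : Real.Gamma (x / 2) ≤ Real.sqrt π := by
    have h := Real.convexOn_Gamma.le_max_of_mem_Icc (show (1 / 2 : ℝ) ∈ Set.Ioi 0 by norm_num)
      (show (1 : ℝ) ∈ Set.Ioi 0 by norm_num)
      (show x / 2 ∈ Set.Icc (1 / 2 : ℝ) 1 from ⟨by linarith, by linarith⟩)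
    rw [Real.Gamma_one_half_eq, Real.Gamma_one] at h
    exact h.trans (max_le le_rfl (Real.one_le_sqrt.2 (by linarith [Real.pi_gt_three])))
  refine (mul_le_mul_of_nonneg_left hG (Real.rpow_nonneg Real.pi_pos.le _)).trans ?_
  rw [Real.sqrt_eq_rpow, ← Real.rpow_add Real.pi_pos]
  exact Real.rpow_le_one_of_one_le_of_nonpos (by linarith [Real.pi_gt_three]) (by linarith)

theorem gC_le_one {x : ℝ} (hx : 1 ≤ x) (hx2 : x ≤ 2) : gC x ≤ 1 := by
  have hG : Real.Gamma x ≤ 1 := by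
    have h := Real.convexOn_Gamma.le_max_of_mem_Icc (show (1 : ℝ) ∈ Set.Ioi 0 by norm_num)
      (show (2 : ℝ) ∈ Set.Ioi 0 by norm_num) (show x ∈ Set.Icc (1 : ℝ) 2 from ⟨hx, hx2⟩)
    rw [Real.Gamma_one, Real.Gamma_two, max_self] at h
    exact h
  have h2 : (2 * π) ^ (-x) ≤ 1 / 2 := by
    refine (Real.rpow_le_rpow_of_exponent_le (by linarith [Real.pi_gt_three]) (neg_le_neg hx)).trans ?_
    rw [Real.rpow_neg_one, one_div]
    exact inv_anti₀ two_pos (by linarith [Real.pi_gt_three])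
  calc gC x = 2 * (2 * π) ^ (-x) * Real.Gamma x := rfl
    _ ≤ 2 * (1 / 2) * 1 := mul_le_mul (mul_le_mul_of_nonneg_left h2 zero_le_two) hG
        (Real.Gamma_pos_of_pos (by linarith)).le (by norm_num)
    _ = 1 := by norm_num

/-- The completed zeta function at `σ = 1 + 1 / L`. -/
theorem lambda_le : (((discr K).natAbs : ℕ) : ℝ) ^ ((1 + 1 / size K) / 2) *
      (gR (1 + 1 / size K) ^ nrRealPlaces K * gC (1 + 1 / size K) ^ nrComplexPlaces K) *
      zetaR K (1 + 1 / size K) ≤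
    2 * Real.sqrt |((discr K : ℤ) : ℝ)| * (2 * size K) ^ finrank ℚ K := by
  set L := size K with hLdef
  have hL : 1 ≤ L := one_le_size
  have hL0 : 0 < L := zero_lt_one.trans_le hL
  set σ := 1 + 1 / L
  have hσ : 1 < σ := lt_add_of_pos_right 1 (by positivity)
  have hσ2 : σ ≤ 2 := by
    have : 1 / L ≤ 1 := (div_le_one hL0).2 hL
    linarith
  have hdabs : (((discr K).natAbs : ℕ) : ℝ) = |((discr K : ℤ) : ℝ)| := by
    rw [← Int.cast_abs, ← Int.natCast_natAbs, Int.cast_natCast]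
  set d : ℝ := (((discr K).natAbs : ℕ) : ℝ) with hd
  have hd0 : 0 < d := Nat.cast_pos.2 (Int.natAbs_pos.2 (discr_ne_zero K))
  have hz : zetaR K σ ≤ (2 * L) ^ finrank ℚ K := by
    have h := norm_dedekindZeta_le K hσ
    rw [dedekindZeta_ofReal K hσ, Complex.norm_real, Real.norm_of_nonneg (zetaR_pos K hσ).le] at h
    refine h.trans (pow_le_pow_left₀ (by positivity) ?_ _)
    simp only [σ, add_sub_cancel_left, one_div_one_div]
    linarith
  have hg : gR σ ^ nrRealPlaces K * gC σ ^ nrComplexPlaces K ≤ 1 :=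
    mul_le_one₀ (pow_le_one₀ (gR_pos (by linarith)).le (gR_le_one hσ.le hσ2))
      (pow_nonneg (gC_pos (by linarith)).le _) (pow_le_one₀ (gC_pos (by linarith)).le (gC_le_one hσ.le hσ2))
  have hdp : d ^ (σ / 2) ≤ 2 * Real.sqrt d := by
    rw [Real.sqrt_eq_rpow, show σ / 2 = 1 / 2 + 1 / L / 2 by simp only [σ]; ring, Real.rpow_add hd0,
      mul_comm 2 (d ^ (1 / 2 : ℝ))]
    refine mul_le_mul_of_nonneg_left ?_ (Real.rpow_nonneg hd0.le _)
    rw [Real.rpow_def_of_pos hd0]
    have h2 : Real.log d * (1 / L / 2) ≤ 1 / 2 := by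
      rw [mul_div_assoc', mul_one_div]
      refine div_le_div_of_nonneg_right ((div_le_one hL0).2 ?_) zero_le_two
      rw [hLdef, size]; linarith
    refine (Real.exp_le_exp.2 h2).trans ?_
    have := Real.exp_bound_div_one_sub_of_interval' (x := 1 / 2) (by norm_num) (by norm_num)
    norm_num at this ⊢
    linarith
  rw [← hdabs]
  calc d ^ (σ / 2) * (gR σ ^ nrRealPlaces K * gC σ ^ nrComplexPlaces K) * zetaR K σ
      ≤ 2 * Real.sqrt d * 1 * (2 * L) ^ finrank ℚ K :=
        mul_le_mul (mul_le_mul hdp hg (mul_nonneg (pow_nonneg (gR_pos (by linarith)).le _)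
          (pow_nonneg (gC_pos (by linarith)).le _)) (by positivity)) hz (zetaR_pos K hσ).le (by positivity)
    _ = _ := by ring

/-- At `σ = 1 + 1 / L`. -/
theorem zetaXiR_le : zetaXiR K (1 + 1 / size K) ≤
    2 * Real.sqrt |((discr K : ℤ) : ℝ)| * (2 * size K) ^ finrank ℚ K := by
  have hσ : 1 < 1 + 1 / size K :=
    lt_add_of_pos_right 1 (one_div_pos.2 (zero_lt_one.trans_le one_le_size))
  refine le_trans ?_ (lambda_le K)
  set σ := 1 + 1 / size K
  refine le_of_mul_le_mul_left ?_ (mul_pos (show 0 < σ by linarith) (show 0 < σ - 1 by linarith))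
  have e := xiR_eq K hσ
  rw [xiR, polyGam] at e
  have := polarR_pos K
  nlinarith

/-- **The distance of a zero from `1`.** -/
theorem polarR_le_of_zero {β : ℝ} (hβ : 1 / 2 ≤ β) (hβ1 : β ≤ 1) (hz : xiR K β = 0) :
    polarR K ≤ (1 - β) * (2 * Real.sqrt |((discr K : ℤ) : ℝ)| * (2 * size K) ^ finrank ℚ K) := by
  have hm : zetaXiR K β ≤ zetaXiR K (1 + 1 / size K) := zetaXiR_mono hβ (by
    have : 0 ≤ 1 / size K := div_nonneg zero_le_one (zero_le_one.trans one_le_size)
    linarith)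
  rw [xiR] at hz
  calc polarR K = (1 - β) * (β * zetaXiR K β) := by linarith
    _ ≤ (1 - β) * (1 * zetaXiR K β) := mul_le_mul_of_nonneg_left
        (mul_le_mul_of_nonneg_right hβ1 (zetaXiR_nonneg β)) (by linarith)
    _ ≤ _ := by
        rw [one_mul]
        exact mul_le_mul_of_nonneg_left (hm.trans (zetaXiR_le K)) (by linarith)

/-- **Landau's upper bound, explicit.** -/
theorem hR_le : hR K ≤
    8 * (finrank ℚ K : ℝ) ^ 2 * Real.sqrt |((discr K : ℤ) : ℝ)| * (2 * size K) ^ finrank ℚ K := by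
  set L := size K
  have hL : 1 ≤ L := one_le_size
  have hσ : 1 < 1 + 1 / L := lt_add_of_pos_right 1 (by positivity)
  have hL1 : 1 / L ≤ 1 := (div_le_one (by linarith)).2 hL
  have h3 : polarR K ≤ 4 * (Real.sqrt |((discr K : ℤ) : ℝ)| * (2 * L) ^ finrank ℚ K) := by
    calc polarR K ≤ xiR K (1 + 1 / L) := by
          have h := xiR_mono (K := K) le_rfl hσ.le
          simpa [xiR] using h
      _ = polyGam K (1 + 1 / L) * zetaR K (1 + 1 / L) := xiR_eq K hσ
      _ = (1 + 1 / L) * (1 + 1 / L - 1) * ((((discr K).natAbs : ℕ) : ℝ) ^ ((1 + 1 / L) / 2) *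
            (gR (1 + 1 / L) ^ nrRealPlaces K * gC (1 + 1 / L) ^ nrComplexPlaces K) *
            zetaR K (1 + 1 / L)) := by rw [polyGam]; ring
      _ ≤ (2 * 1) * (2 * Real.sqrt |((discr K : ℤ) : ℝ)| * (2 * L) ^ finrank ℚ K) :=
          mul_le_mul (mul_le_mul (by linarith) (by linarith) (by linarith) zero_le_two) (lambda_le K)
            (mul_nonneg (mul_nonneg (Real.rpow_nonneg (Nat.cast_nonneg _) _)
              (mul_nonneg (pow_nonneg (gR_pos (by linarith)).le _) (pow_nonneg (gC_pos (by linarith)).le _)))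
              (zetaR_pos K hσ).le) (by norm_num)
      _ = _ := by ring
  rw [hR_eq]
  have hw : (Units.torsionOrder K : ℝ) ≤ ((2 * finrank ℚ K ^ 2 : ℕ) : ℝ) :=
    Nat.cast_le.2 (FA.ConductorDiscr.torsionOrder_le K)
  push_cast at hw
  refine (div_le_self (mul_nonneg (polarR_pos K).le (Nat.cast_nonneg _)) (one_le_pow₀ one_le_two)).trans ?_
  refine (mul_le_mul h3 hw (Nat.cast_nonneg _) (by positivity)).trans (le_of_eq ?_)
  ring

end FA.StarkEff
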