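import Fermat.Agent.HeckeBS.Residue
import Mathlib.RingTheory.Trace.Basic

/-!
# The regulator of a quadratic field is at least `1/4`

If a unit of a real quadratic field had both absolute values in `(3/4, 4/3)`, the trace of its
square, an integer, would be `2`, so both would be `1`.
-/

set_option autoImplicit false
set_option linter.style.haveILetI false

noncomputable section

universe u

open NumberField InfinitePlace Module
open scoped Classical

namespace FA.StarkEff

variable (K : Type u) [Field K] [NumberField K]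

theorem quarter_le_regulator (h : finrank ℚ K = 2) : 1 / 4 ≤ Units.regulator K := by
  have hplaces := card_add_two_mul_card_eq_rank K
  rw [h] at hplaces
  have hcard := card_eq_nrRealPlaces_add_nrComplexPlaces (K := K)
  have hrank : Units.rank K = Fintype.card (InfinitePlace K) - 1 := rfl
  obtain ⟨w'⟩ : Nonempty (InfinitePlace K) := inferInstance
  have e : {w // w ≠ w'} ≃ Fin (Units.rank K) := Fintype.equivFinOfCardEq (by
    rw [hrank, Fintype.card_subtype_compl, Fintype.card_subtype_eq])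
  rw [Units.regulator_eq_det K w' e]
  rcases (by omega : nrComplexPlaces K = 1 ∨ nrComplexPlaces K = 0) with hc | hc
  · haveI : IsEmpty {w // w ≠ w'} := Fintype.card_eq_zero_iff.1 (by
      rw [Fintype.card_subtype_compl, Fintype.card_subtype_eq]; omega)
    rw [Matrix.det_isEmpty, abs_one]
    norm_num
  have hreal : ∀ w : InfinitePlace K, IsReal w := fun w =>
    (isReal_or_isComplex w).resolve_right fun hw => by
      have : 0 < nrComplexPlaces K := Fintype.card_pos_iff.2 ⟨⟨w, hw⟩⟩
      omega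
  obtain ⟨w₁, hw₁⟩ : ∃ w₁ : {w // w ≠ w'}, ∀ w, w = w₁ := by
    have hone : Fintype.card {w // w ≠ w'} = 1 := by
      rw [Fintype.card_subtype_compl, Fintype.card_subtype_eq]; omega
    obtain ⟨w₁, hw₁⟩ := Fintype.card_eq_one_iff.1 hone
    exact ⟨w₁, hw₁⟩
  letI : Unique {w // w ≠ w'} := ⟨⟨w₁⟩, hw₁⟩
  have hpos := Units.regulator_pos K
  rw [Units.regulator_eq_det K w' e, Matrix.det_unique, Matrix.of_apply] at hpos
  rw [Matrix.det_unique, Matrix.of_apply]
  set v : (𝓞 K)ˣ := Units.fundSystem K (e default)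
  set W : InfinitePlace K := (default : {w // w ≠ w'}).val with hW
  have hm : ∀ w : InfinitePlace K, mult w = 1 := fun w => by rw [mult, if_pos (hreal w)]
  rw [hm W, Nat.cast_one, one_mul] at hpos ⊢
  by_contra hlt
  push Not at hlt
  set a : ℝ := W (v : K)
  set b : ℝ := w' (v : K)
  have ha0 : 0 < a := InfinitePlace.pos_iff.2 (Units.coe_ne_zero v)
  -- the two places
  have huniv : (Finset.univ : Finset (InfinitePlace K)) = {W, w'} := by
    ext w
    simp only [Finset.mem_univ, Finset.mem_insert, Finset.mem_singleton, true_iff]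
    rcases eq_or_ne w w' with rfl | hne
    · exact Or.inr rfl
    · exact Or.inl (congrArg Subtype.val (hw₁ ⟨w, hne⟩))
  have hne : W ≠ w' := (default : {w // w ≠ w'}).2
  have hab : a * b = 1 := by
    have hp := prod_eq_abs_norm (v : K)
    rw [huniv, Finset.prod_pair hne, hm, hm, pow_one, pow_one] at hp
    rw [Units.norm K v, Rat.cast_one] at hp
    exact hp
  -- the trace of the square
  have hemb : ∑ φ : K →+* ℂ, φ ((v : K) ^ 2) = ((a ^ 2 + b ^ 2 : ℝ) : ℂ) := by
    have hbij : Function.Bijective (InfinitePlace.mk : (K →+* ℂ) → InfinitePlace K) :=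
      ⟨fun φ ψ hφψ => by
        rcases mk_eq_iff.1 hφψ with h' | h'
        · exact h'
        · rwa [ComplexEmbedding.isReal_iff.1 (isReal_of_mk_isReal (hreal _))] at h',
       fun w => ⟨w.embedding, mk_embedding w⟩⟩
    have hsq : ∀ φ : K →+* ℂ, φ ((v : K) ^ 2) = (((InfinitePlace.mk φ) (v : K) ^ 2 : ℝ) : ℂ) := fun φ => by
      have hr := isReal_of_mk_isReal (hreal (InfinitePlace.mk φ))
      have hval : φ (v : K) = ((hr.embedding (v : K) : ℝ) : ℂ) := (hr.coe_embedding_apply _).symm
      rw [InfinitePlace.apply, map_pow, hval, Complex.norm_real, Real.norm_eq_abs, sq_abs]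
      push_cast
      rfl
    rw [Finset.sum_congr rfl fun φ _ => hsq φ,
      Fintype.sum_bijective _ hbij _ (fun w : InfinitePlace K => (((w (v : K)) ^ 2 : ℝ) : ℂ)) fun φ => rfl,
      huniv, Finset.sum_pair hne]
    push_cast
    rfl
  obtain ⟨k, hk⟩ : ∃ k : ℤ, (k : ℚ) = Algebra.trace ℚ K ((v : K) ^ 2) :=
    IsIntegrallyClosed.isIntegral_iff.1
      (Algebra.isIntegral_trace ((RingOfIntegers.isIntegral_coe (v : 𝓞 K)).pow 2))
  have htr : ((k : ℝ) : ℂ) = ((a ^ 2 + b ^ 2 : ℝ) : ℂ) := by
    rw [← hemb, Fintype.sum_equiv (RingHom.equivRatAlgHom K ℂ) (fun φ => φ ((v : K) ^ 2))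
      (fun f => f ((v : K) ^ 2)) fun φ => by simp [RingHom.equivRatAlgHom_apply],
      ← trace_eq_sum_embeddings ℂ, ← hk]
    simp
  have hs : (k : ℝ) = a ^ 2 + b ^ 2 := Complex.ofReal_injective htr
  obtain ⟨hl1, hl2⟩ := abs_lt.1 hlt
  have hexp : Real.exp (1 / 4) ≤ 4 / 3 :=
    (Real.exp_bound_div_one_sub_of_interval' (by norm_num) (by norm_num)).le.trans (by norm_num)
  have hexp' : 3 / 4 ≤ Real.exp (-(1 / 4)) :=
    le_trans (by norm_num) (Real.add_one_le_exp (-(1 / 4)))
  have ha1 : a < 4 / 3 := ((Real.log_lt_iff_lt_exp ha0).1 hl2).trans_le hexp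
  have ha2 : 3 / 4 < a := hexp'.trans_lt ((Real.lt_log_iff_exp_lt ha0).1 hl1)
  have hb : b = 1 / a := by rw [eq_div_iff ha0.ne', mul_comm, hab]
  have hb1 : b < 4 / 3 := by rw [hb, div_lt_iff₀ ha0]; linarith
  have hb2 : 3 / 4 < b := by rw [hb, lt_div_iff₀ ha0]; linarith
  have hk3 : (k : ℝ) < 3 := by
    rw [hs]
    rcases le_total a 1 with h1 | h1
    · nlinarith
    · have : b ≤ 1 := by rw [hb, div_le_one ha0]; linarith
      nlinarith
  have hk2 : 2 ≤ (k : ℝ) := by nlinarith [sq_nonneg (a - b)]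
  have hk3' : k < 3 := by exact_mod_cast hk3
  have hk2' : 2 ≤ k := by exact_mod_cast hk2
  obtain rfl : k = 2 := by omega
  have heq : (a - b) ^ 2 = 0 := by push_cast at hs; nlinarith
  have hab' : a = b := sub_eq_zero.1 (pow_eq_zero_iff two_ne_zero |>.1 heq)
  have ha : a = 1 := by nlinarith [sq_nonneg (a - 1)]
  rw [ha, Real.log_one, abs_zero] at hpos
  exact lt_irrefl 0 hpos

/-- **`h R ≥ 1/4`.** -/
theorem quarter_le_hR (h : finrank ℚ K = 2) : 1 / 4 ≤ FA.HeckeBS.hR K :=
  (quarter_le_regulator K h).trans (le_mul_of_one_le_left (Units.regulator_pos K).le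
    (Nat.one_le_cast.2 (classNumber_pos K)))

end FA.StarkEff
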