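import Fermat.Agent.StarkZero.Main
import Fermat.Agent.StarkEffective.ZetaBound
import Fermat.Agent.StarkEffective.QuadraticRegulator
import Fermat.Agent.CMFiniteness.Main

/-!
# Stark's effective theorem of Brauer–Siegel type

A zero near `1` of `ζ_K` is a zero of `ζ_Q` for a quadratic subfield `Q` of `K` itself, and then
`1 - β ≫ 1 / (√|d_Q| L²)`. As `|d_Q|^(n/2) ≤ |d_K|` this gives
`h R ≫ |d|^(1/2 - 1/n) / L²` with explicit constants, hence an explicit bound for the discriminant
of a CM field of degree at least `6` in terms of its relative class number.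
-/

set_option autoImplicit false
set_option linter.style.haveILetI false

noncomputable section

open NumberField Module Set
open FA.HeckeBS FA.StarkZero
open scoped Real Classical

namespace FA.StarkEff

universe u

/-- Zeros in `0 < re s` are invariant under isomorphisms. -/
theorem xiFun_eq_zero_congr {F F' : Type*} [Field F] [NumberField F] [Field F'] [NumberField F']
    (e : F ≃+* F') {s : ℂ} (hs : 0 < s.re) (h : xiFun F s = 0) : xiFun F' s = 0 := by
  obtain ⟨E, hE, hEL, -⟩ := FA.ZetaDivisibility.exists_zeta_cleared F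
  obtain ⟨E', hE', hEL', -⟩ := FA.ZetaDivisibility.exists_zeta_cleared F'
  have heq : E' = E := FA.ZetaDivisibility.eq_of_eqOn_halfPlane hE' hE fun z hz => by
    rw [hEL z hz, hEL' z hz, FA.AbelianZeta.dedekindZeta_congr e]
  rw [xiFun_eq_mul F hE hEL hs] at h
  have h0 : E s = 0 := (mul_eq_zero.1 h).resolve_left
    (mul_ne_zero (fun h0 => by rw [h0] at hs; simp at hs) (differentiableAt_gamFac F hs).2)
  rw [xiFun_eq_mul F' hE' hEL' hs]
  simp [heq, h0]

variable (K : Type u) [Field K] [NumberField K]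

/-- **Heilbronn and Stark**: the exceptional zero comes from a quadratic subfield of `K` itself. -/
theorem exists_quadratic_of_zero {β : ℝ}
    (h : β ∈ Icc (1 - zoneC (finrank ℚ K) / size K) 1) (hz : xiFun K (β : ℂ) = 0) :
    ∃ Q : IntermediateField ℚ K, finrank ℚ Q = 2 ∧ xiFun Q (β : ℂ) = 0 := by
  obtain ⟨hβ0, hβ1⟩ := ne_of_mem_zone K h hz
  have hre : 0 < ((β : ℂ)).re := by simpa using hβ0
  obtain ⟨M, _, _, _, _, _, hdeg, hd⟩ := FA.BSDegree.exists_galois_closure K
  have hzM := xiFun_eq_zero_of_galois K M hz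
  obtain ⟨F, hF2, hFz, hle⟩ :=
    exists_quadratic_subfield hβ0 hβ1 hzM (zero_simple M (mem_zone_closure K M hdeg hd h) hzM)
  set i : K →ₐ[ℚ] M := (algebraMap K M).toRatAlgHom
  have hFK : F ≤ i.fieldRange :=
    hle _ (xiFun_eq_zero_congr (AlgEquiv.ofInjectiveField i).toRingEquiv hre hz)
  have hmap : (F.comap i).map i = F := by
    ext x
    rw [IntermediateField.mem_map]
    constructor
    · rintro ⟨y, hy, rfl⟩; exact hy
    · intro hx
      obtain ⟨y, rfl⟩ := hFK hx
      exact ⟨y, hx, rfl⟩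
  set e : F.comap i ≃ₐ[ℚ] F := ((F.comap i).equivMap i).trans (IntermediateField.equivOfEq hmap)
  exact ⟨F.comap i, by rw [e.toLinearEquiv.finrank_eq, hF2],
    xiFun_eq_zero_congr e.symm.toRingEquiv hre hFz⟩

/-- `exp (-π e n) / 2 ^ n`. -/
def gammaC (n : ℕ) : ℝ := Real.exp (-(π * Real.exp 1 * n)) / 2 ^ n

theorem gammaC_pos (n : ℕ) : 0 < gammaC n := by unfold gammaC; positivity

/-- **No quadratic subfield.** -/
theorem hR_ge_of_no_quadratic (hK : ∀ Q : IntermediateField ℚ K, finrank ℚ Q ≠ 2) :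
    hRConst (finrank ℚ K) * (Real.sqrt |((discr K : ℤ) : ℝ)| / size K) ≤ hR K := by
  set n := finrank ℚ K
  set η := zoneC n / size K with hη
  have hL := one_le_size (K := K)
  have hη0 : 0 < η := div_pos (zoneC_pos n) (zero_lt_one.trans_le hL)
  have hη3 : η ≤ 1 / 300 := zoneC_div_le n hL
  have h := hR_lower_of_no_zero K (x := 1 - η) (by linarith) (by linarith) fun y hy hz =>
    let ⟨Q, hQ, _⟩ := exists_quadratic_of_zero K hy hz
    hK Q hQ
  refine le_trans ?_ h
  have hpow := half_sqrt_le_rpow K (n := n) (x := 1 - η) le_rfl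
  calc hRConst n * (Real.sqrt |((discr K : ℤ) : ℝ)| / size K)
      = 1 / 2 * η * gammaC n * (1 / 2 * Real.sqrt |((discr K : ℤ) : ℝ)|) := by
        rw [hRConst, hη, gammaC]; ring
    _ ≤ _ := mul_le_mul (mul_le_mul_of_nonneg_right (by nlinarith) (gammaC_pos n).le) hpow
        (by positivity) (mul_nonneg (mul_nonneg (by linarith) (by linarith)) (gammaC_pos n).le)

/-- An odd degree leaves no room for a quadratic subfield. -/
theorem no_quadratic (h : Odd (finrank ℚ K)) (Q : IntermediateField ℚ K) : finrank ℚ Q ≠ 2 := fun h2 =>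
  h.not_two_dvd_nat ⟨finrank Q K, by rw [← h2]; exact (finrank_mul_finrank ℚ Q K).symm⟩

/-- The constant of the general lower bound. -/
def lowConst (n : ℕ) : ℝ := gammaC n * min (1 / 4096) (zoneC n / 4)

theorem lowConst_pos (n : ℕ) : 0 < lowConst n := by
  have := gammaC_pos n
  have := zoneC_pos n
  unfold lowConst; positivity

/-- The discriminant of a quadratic subfield. -/
theorem sqrt_discr_quadratic_le {Q : IntermediateField ℚ K} (hQ : finrank ℚ Q = 2) :
    Real.sqrt |((discr Q : ℤ) : ℝ)| ≤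
        |((discr K : ℤ) : ℝ)| ^ (1 / (finrank ℚ K : ℝ)) ∧ size Q ≤ size K := by
  have hcast : ∀ z : ℤ, |(z : ℝ)| = (z.natAbs : ℝ) := fun z => by
    rw [← Int.cast_abs, ← Int.natCast_natAbs, Int.cast_natCast]
  have hn : 2 * finrank Q K = finrank ℚ K := hQ ▸ finrank_mul_finrank ℚ Q K
  have h := natAbs_discr_eq_absNorm_differentIdeal_mul_natAbs_discr_pow Q (𝓞 Q) K (𝓞 K)
  have hle : (discr Q).natAbs ^ finrank Q K ≤ (discr K).natAbs :=
    Nat.le_of_dvd (Int.natAbs_pos.2 (discr_ne_zero K)) ⟨_, h.trans (mul_comm _ _)⟩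
  have hk : finrank Q K ≠ 0 := fun h0 => by
    rw [h0, mul_zero] at hn; exact (finrank_pos (R := ℚ) (M := K)).ne hn
  constructor
  · rw [hcast, hcast, ← hn, Real.sqrt_eq_rpow]
    refine le_trans (le_of_eq ?_) (Real.rpow_le_rpow (z := 1 / ((2 * finrank Q K : ℕ) : ℝ))
      (pow_nonneg (Nat.cast_nonneg _) _) (by exact_mod_cast hle) (by positivity))
    rw [← Real.rpow_natCast, ← Real.rpow_mul (Nat.cast_nonneg _)]
    push_cast
    have : (finrank Q K : ℝ) ≠ 0 := Nat.cast_ne_zero.2 hk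
    congr 1
    field_simp
  · exact add_le_add le_rfl (Real.log_le_log (Nat.cast_pos.2 (Int.natAbs_pos.2 (discr_ne_zero Q)))
      (Nat.cast_le.2 ((le_self_pow (Int.natAbs_pos.2 (discr_ne_zero Q)) hk).trans hle)))

/-- **Stark's effective lower bound in every degree.** -/
theorem hR_ge : lowConst (finrank ℚ K) *
    (|((discr K : ℤ) : ℝ)| ^ (1 / 2 - 1 / (finrank ℚ K : ℝ)) / size K ^ 2) ≤ hR K := by
  set n := finrank ℚ K
  have hL := one_le_size (K := K)
  have hL0 : 0 < size K := zero_lt_one.trans_le hL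
  set d := |((discr K : ℤ) : ℝ)| with hd
  have hd1 : 1 ≤ d := one_le_absR K
  have hd0 : 0 < d := zero_lt_one.trans_le hd1
  have hG := gammaC_pos n
  by_cases hex : ∃ β ∈ Icc (1 - zoneC n / size K) 1, xiFun K ((β : ℝ) : ℂ) = 0
  · obtain ⟨β, hβ, hz⟩ := hex
    obtain ⟨hβ0, hβ1⟩ := ne_of_mem_zone K hβ hz
    obtain ⟨Q, hQ, hzQ⟩ := exists_quadratic_of_zero K hβ hz
    have hhalf : 1 / 2 ≤ β := by linarith [hβ.1, zoneC_div_le n hL]
    have h := hR_lower K hβ0 hβ1 (le_of_eq (by
      rw [xiFun_ofReal, Complex.ofReal_eq_zero] at hz; exact hz.symm))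
    refine le_trans ?_ h
    have hpow := half_sqrt_le_rpow K (n := n) hβ.1
    rw [← hd] at hpow
    -- the distance of the zero from `1`
    have hxQ : xiR Q β = 0 := by rwa [xiFun_ofReal, Complex.ofReal_eq_zero] at hzQ
    have h1 := polarR_le_of_zero Q hhalf hβ1.le hxQ
    rw [hQ] at h1
    have h2 : (1 : ℝ) / 32 ≤ polarR Q := by
      have hq := quarter_le_hR Q hQ
      rw [hR_eq] at hq
      have hw : (Units.torsionOrder Q : ℝ) ≤ 8 := by
        have := FA.ConductorDiscr.torsionOrder_le Q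
        rw [hQ] at this
        exact_mod_cast this
      have hp := polarR_pos Q
      have h3 : polarR Q * Units.torsionOrder Q / 2 ^ (InfinitePlace.nrRealPlaces Q +
          InfinitePlace.nrComplexPlaces Q) ≤ polarR Q * 8 :=
        (div_le_self (by positivity) (one_le_pow₀ one_le_two)).trans (mul_le_mul_of_nonneg_left hw hp.le)
      linarith
    obtain ⟨hsq, hsz⟩ := sqrt_discr_quadratic_le K hQ
    set p := d ^ (1 / (n : ℝ)) with hp
    have hp0 : 0 < p := Real.rpow_pos_of_pos hd0 _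
    have h3 : 1 / 32 ≤ (1 - β) * (8 * p * size K ^ 2) := by
      refine h2.trans (h1.trans (mul_le_mul_of_nonneg_left ?_ (by linarith)))
      have hLQ := one_le_size (K := Q)
      calc 2 * Real.sqrt |((discr Q : ℤ) : ℝ)| * (2 * size Q) ^ 2
          ≤ 2 * p * (2 * size K) ^ 2 := by gcongr
        _ = _ := by ring
    have h4 : 1 / (256 * p * size K ^ 2) ≤ 1 - β := by
      rw [div_le_iff₀ (by positivity)]; linarith
    calc lowConst n * (d ^ (1 / 2 - 1 / (n : ℝ)) / size K ^ 2)
        ≤ gammaC n * (1 / 4096) * (Real.sqrt d / p / size K ^ 2) := by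
          rw [Real.rpow_sub hd0, ← Real.sqrt_eq_rpow]
          exact mul_le_mul_of_nonneg_right (mul_le_mul_of_nonneg_left (min_le_left _ _) hG.le)
            (by positivity)
      _ = 1 / 2 * (1 / (256 * p * size K ^ 2)) * gammaC n * (1 / 2 * Real.sqrt d) * (1 / 4) := by ring
      _ ≤ 1 / 2 * (1 / (256 * p * size K ^ 2)) * gammaC n * (1 / 2 * Real.sqrt d) :=
          mul_le_of_le_one_right (by positivity) (by norm_num)
      _ ≤ β * (1 - β) * gammaC n * d ^ (β / 2) :=
          mul_le_mul (mul_le_mul_of_nonneg_right (mul_le_mul hhalf h4 (by positivity) hβ0.le) hG.le) hpow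
            (by positivity) (mul_nonneg (mul_nonneg hβ0.le (by linarith)) hG.le)
  · push Not at hex
    set η := zoneC n / size K with hη
    have hη0 : 0 < η := div_pos (zoneC_pos n) hL0
    have hη3 : η ≤ 1 / 300 := zoneC_div_le n hL
    have h := hR_lower_of_no_zero K (x := 1 - η) (by linarith) (by linarith) fun y hy => hex y hy
    refine le_trans ?_ h
    have hpow := half_sqrt_le_rpow K (n := n) (x := 1 - η) le_rfl
    rw [← hd] at hpow
    calc lowConst n * (d ^ (1 / 2 - 1 / (n : ℝ)) / size K ^ 2)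
        ≤ gammaC n * (zoneC n / 4) * (Real.sqrt d / size K) := by
          refine mul_le_mul (mul_le_mul_of_nonneg_left (min_le_right _ _) hG.le) ?_ (by positivity)
            (mul_nonneg hG.le (div_nonneg (zoneC_pos n).le (by norm_num)))
          rw [Real.sqrt_eq_rpow]
          exact div_le_div₀ (Real.rpow_nonneg hd0.le _) (Real.rpow_le_rpow_of_exponent_le hd1
            (sub_le_self _ (by positivity))) hL0 (le_self_pow₀ hL two_ne_zero)
      _ = 1 / 2 * η * gammaC n * (1 / 2 * Real.sqrt d) := by rw [hη]; ring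
      _ ≤ _ := mul_le_mul (mul_le_mul_of_nonneg_right (by nlinarith) hG.le) hpow
          (by positivity) (mul_nonneg (mul_nonneg (by linarith) (by linarith)) hG.le)

/-- **The explicit bound for CM fields.** -/
def cmDiscrBound (n B : ℕ) : ℕ :=
  ⌈(B * 4 ^ n * 8 * (n : ℝ) ^ 2 * (24 * (n + 2)) ^ (n + 2) / lowConst n) ^ 24⌉₊

theorem cm_discr_le [IsCMField K] {B : ℕ} (hn : 6 ≤ finrank ℚ K)
    (hB : classNumber K ≤ B * classNumber (maximalRealSubfield K)) :
    (discr K).natAbs ≤ cmDiscrBound (finrank ℚ K) B := by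
  set n := finrank ℚ K with hndef
  have hcast : ∀ z : ℤ, |(z : ℝ)| = (z.natAbs : ℝ) := fun z => by
    rw [← Int.cast_abs, ← Int.natCast_natAbs, Int.cast_natCast]
  set d : ℝ := (((discr K).natAbs : ℕ) : ℝ) with hd
  have hd1 : 1 ≤ d := Nat.one_le_cast.2 (Int.natAbs_pos.2 (discr_ne_zero K))
  have hd0 : 0 < d := zero_lt_one.trans_le hd1
  set L := size K with hL
  have hL1 : 1 ≤ L := one_le_size
  have hlow := hR_ge K
  rw [← hndef, hcast, ← hd, ← hL] at hlow
  have hup := hR_le (maximalRealSubfield K)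
  have hplus := FA.CMFinite.hR_le_plus K hB
  rw [← hndef] at hplus
  have hP : finrank ℚ (maximalRealSubfield K) ≤ n := by rw [hndef, FA.CMFinite.finrank_eq_two_mul K]; omega
  have hsq := FA.CMFinite.natAbs_discr_plus_sq_le K
  have hPs : Real.sqrt |((discr (maximalRealSubfield K) : ℤ) : ℝ)| ≤ d ^ (1 / 4 : ℝ) := by
    rw [hcast, Real.sqrt_eq_rpow, show (1 / 4 : ℝ) = 1 / 2 * (1 / 2) by norm_num,
      Real.rpow_mul hd0.le, ← Real.sqrt_eq_rpow d]
    refine Real.rpow_le_rpow (Nat.cast_nonneg _) (Real.le_sqrt_of_sq_le ?_) (by norm_num)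
    show _ ≤ (((discr K).natAbs : ℕ) : ℝ)
    exact_mod_cast hsq
  have hLP : size (maximalRealSubfield K) ≤ L := add_le_add le_rfl
    (Real.log_le_log (Nat.cast_pos.2 (Int.natAbs_pos.2 (discr_ne_zero (maximalRealSubfield K))))
      (Nat.cast_le.2 ((Nat.le_self_pow two_ne_zero _).trans hsq)))
  have hc := lowConst_pos n
  set X : ℝ := B * 4 ^ n * 8 * (n : ℝ) ^ 2
  have hupK : hR K ≤ X * d ^ (1 / 4 : ℝ) * L ^ n := by
    refine hplus.trans ((mul_le_mul_of_nonneg_left hup (by positivity)).trans ?_)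
    have h1 : (finrank ℚ (maximalRealSubfield K) : ℝ) ≤ n := Nat.cast_le.2 hP
    have hLP1 := one_le_size (K := (maximalRealSubfield K))
    have h2 : (2 * size (maximalRealSubfield K)) ^ finrank ℚ (maximalRealSubfield K) ≤ (2 * L) ^ n :=
      (pow_le_pow_left₀ (by positivity) (by linarith) _).trans (pow_le_pow_right₀ (by linarith) hP)
    calc (B : ℝ) * 2 ^ n * (8 * (finrank ℚ (maximalRealSubfield K) : ℝ) ^ 2 *
          Real.sqrt |((discr (maximalRealSubfield K) : ℤ) : ℝ)| *
          (2 * size (maximalRealSubfield K)) ^ finrank ℚ (maximalRealSubfield K))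
        ≤ (B : ℝ) * 2 ^ n * (8 * (n : ℝ) ^ 2 * d ^ (1 / 4 : ℝ) * (2 * L) ^ n) := by gcongr
      _ = _ := by rw [mul_pow]; simp only [X, show (4 : ℝ) ^ n = 2 ^ n * 2 ^ n by
            rw [← mul_pow]; norm_num]; ring
  -- a power of the logarithm
  set k : ℝ := 24 * ((n : ℝ) + 2)
  have hk : 1 ≤ k := by
    have : (0 : ℝ) ≤ n := Nat.cast_nonneg _
    simp only [k]; linarith
  have hLk : L ^ (n + 2) ≤ k ^ (n + 2) * d ^ (1 / 24 : ℝ) := by
    have h1 : L ≤ k * d ^ (1 / k) := by
      have h2 := Real.log_le_sub_one_of_pos (Real.rpow_pos_of_pos hd0 (1 / k))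
      rw [Real.log_rpow hd0] at h2
      have h3 : Real.log d ≤ k * (d ^ (1 / k) - 1) := by
        have := mul_le_mul_of_nonneg_left h2 (zero_le_one.trans hk)
        rwa [← mul_assoc, mul_one_div_cancel (by linarith : k ≠ 0), one_mul] at this
      rw [hL, size, ← hd]
      linarith
    refine (pow_le_pow_left₀ (zero_le_one.trans hL1) h1 _).trans (le_of_eq ?_)
    rw [mul_pow, ← Real.rpow_natCast (d ^ (1 / k)), ← Real.rpow_mul hd0.le]
    congr 2
    simp only [k]
    push_cast
    field_simp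
  have hexp : d ^ (1 / 3 : ℝ) ≤ d ^ (1 / 2 - 1 / (n : ℝ)) := by
    refine Real.rpow_le_rpow_of_exponent_le hd1 ?_
    have h6 : (6 : ℝ) ≤ n := by exact_mod_cast hn
    have : 1 / (n : ℝ) ≤ 1 / 6 := one_div_le_one_div_of_le (by norm_num) h6
    linarith
  have hchain : lowConst n * d ^ (1 / 3 : ℝ) ≤
      X * k ^ (n + 2) * (d ^ (1 / 4 : ℝ) * d ^ (1 / 24 : ℝ)) := by
    have h1 : lowConst n * d ^ (1 / 3 : ℝ) ≤ hR K * L ^ 2 := by
      refine (mul_le_mul_of_nonneg_left hexp hc.le).trans ?_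
      rw [mul_div_assoc', div_le_iff₀ (pow_pos (zero_lt_one.trans_le hL1) 2)] at hlow
      exact hlow
    refine h1.trans ((mul_le_mul_of_nonneg_right hupK (sq_nonneg L)).trans ?_)
    calc X * d ^ (1 / 4 : ℝ) * L ^ n * L ^ 2 = X * d ^ (1 / 4 : ℝ) * L ^ (n + 2) := by ring
      _ ≤ X * d ^ (1 / 4 : ℝ) * (k ^ (n + 2) * d ^ (1 / 24 : ℝ)) :=
          mul_le_mul_of_nonneg_left hLk (by positivity)
      _ = _ := by ring
  have h24 : d ^ (1 / 24 : ℝ) ≤ X * k ^ (n + 2) / lowConst n := by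
    rw [le_div_iff₀ hc]
    refine le_of_mul_le_mul_right ?_
      (mul_pos (Real.rpow_pos_of_pos hd0 (1 / 4 : ℝ)) (Real.rpow_pos_of_pos hd0 (1 / 24 : ℝ)))
    refine le_trans (le_of_eq ?_) hchain
    rw [show (1 / 3 : ℝ) = 1 / 24 + (1 / 4 + 1 / 24) by norm_num, Real.rpow_add hd0, Real.rpow_add hd0]
    ring
  refine Nat.cast_le.1 (le_trans ?_ (Nat.le_ceil _))
  calc (((discr K).natAbs : ℕ) : ℝ) = (d ^ (1 / 24 : ℝ)) ^ (24 : ℕ) := by
        rw [← Real.rpow_natCast, ← Real.rpow_mul hd0.le]; norm_num [hd]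
    _ ≤ _ := pow_le_pow_left₀ (Real.rpow_nonneg hd0.le _) h24 24

end FA.StarkEff
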