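import Fermat.Agent.StarkEffective.Main
import Fermat.Agent.BrauerSiegelDegree.Main

/-!
# The theorem of Brauer and Siegel with the degree free

For a Galois field of degree `n` and `D = log |d|` the constants cost `O(n)` in `log (h R)`; an
exceptional zero lies in a quadratic subfield, where Siegel's theorem keeps it `|d|^(-ε)` away from
`1`. So `log (h R) = D / 2 + O(ε D + C(ε) n)`.
-/

set_option autoImplicit false
set_option linter.style.haveILetI false

noncomputable section

open NumberField Module Set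
open FA.HeckeBS FA.StarkOdlyzko FA.StarkZero
open scoped Real Classical

namespace FA.StarkEff

universe u

/-- `log |d|`. -/
def logDiscr (K : Type u) [Field K] [NumberField K] : ℝ := Real.log (((discr K).natAbs : ℕ) : ℝ)

variable (K : Type u) [Field K] [NumberField K]

theorem logDiscr_nonneg : 0 ≤ logDiscr K := log_natAbs_nonneg

theorem one_le_finrank_cast : (1 : ℝ) ≤ finrank ℚ K := Nat.one_le_cast.2 finrank_pos

theorem log_absR : Real.log |((discr K : ℤ) : ℝ)| = logDiscr K := by
  rw [logDiscr, ← Int.cast_abs, ← Int.natCast_natAbs, Int.cast_natCast]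

/-- **The upper bound at a fixed point `1 + a`.** -/
theorem polarR_le_rpow {a : ℝ} (ha : 0 < a) (ha1 : a ≤ 1) :
    polarR K ≤ 2 * |((discr K : ℤ) : ℝ)| ^ ((1 + a) / 2) * (1 + 1 / a) ^ finrank ℚ K := by
  have hσ : 1 < 1 + a := by linarith
  have hdabs : (((discr K).natAbs : ℕ) : ℝ) = |((discr K : ℤ) : ℝ)| := by
    rw [← Int.cast_abs, ← Int.natCast_natAbs, Int.cast_natCast]
  have hg : gR (1 + a) ^ InfinitePlace.nrRealPlaces K * gC (1 + a) ^ InfinitePlace.nrComplexPlaces K ≤ 1 :=
    mul_le_one₀ (pow_le_one₀ (gR_pos (by linarith)).le (gR_le_one hσ.le (by linarith)))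
      (pow_nonneg (gC_pos (by linarith)).le _)
      (pow_le_one₀ (gC_pos (by linarith)).le (gC_le_one hσ.le (by linarith)))
  have hz : zetaR K (1 + a) ≤ (1 + 1 / a) ^ finrank ℚ K := by
    have h := norm_dedekindZeta_le K hσ
    rw [dedekindZeta_ofReal K hσ, Complex.norm_real, Real.norm_of_nonneg (zetaR_pos K hσ).le,
      add_sub_cancel_left] at h
    exact h
  calc polarR K ≤ xiR K (1 + a) := by
        have h := xiR_mono (K := K) le_rfl hσ.le
        simpa [xiR] using h
    _ = polyGam K (1 + a) * zetaR K (1 + a) := xiR_eq K hσ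
    _ = (1 + a) * (1 + a - 1) * ((((discr K).natAbs : ℕ) : ℝ) ^ ((1 + a) / 2) *
          (gR (1 + a) ^ InfinitePlace.nrRealPlaces K * gC (1 + a) ^ InfinitePlace.nrComplexPlaces K)) *
          zetaR K (1 + a) := by rw [polyGam]
    _ ≤ 2 * 1 * (|((discr K : ℤ) : ℝ)| ^ ((1 + a) / 2) * 1) * (1 + 1 / a) ^ finrank ℚ K := by
        rw [hdabs]
        refine mul_le_mul (mul_le_mul (mul_le_mul (by linarith) (by linarith) (by linarith) zero_le_two)
          (mul_le_mul_of_nonneg_left hg (Real.rpow_nonneg (abs_nonneg _) _))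
          (mul_nonneg (Real.rpow_nonneg (abs_nonneg _) _) ?_) (by norm_num)) hz (zetaR_pos K hσ).le
          (by positivity)
        exact mul_nonneg (pow_nonneg (gR_pos (by linarith)).le _) (pow_nonneg (gC_pos (by linarith)).le _)
    _ = _ := by ring

/-- **`log (h R) ≤ (1/2 + a/2) D + O(n / a)`**, for every field. -/
theorem log_hR_le {a : ℝ} (ha : 0 < a) (ha1 : a ≤ 1) :
    Real.log (hR K) ≤ (1 + a) / 2 * logDiscr K + (6 + 1 / a) * finrank ℚ K := by
  have hn := one_le_finrank_cast K
  have hd0 : 0 < |((discr K : ℤ) : ℝ)| := zero_lt_one.trans_le (one_le_absR K)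
  have hw : (Units.torsionOrder K : ℝ) ≤ ((2 * finrank ℚ K ^ 2 : ℕ) : ℝ) :=
    Nat.cast_le.2 (FA.ConductorDiscr.torsionOrder_le K)
  push_cast at hw
  set n : ℝ := (finrank ℚ K : ℝ) with hndef
  have hR' : hR K ≤ 2 * |((discr K : ℤ) : ℝ)| ^ ((1 + a) / 2) * (1 + 1 / a) ^ finrank ℚ K * (2 * n ^ 2) := by
    rw [hR_eq]
    exact (div_le_self (mul_nonneg (polarR_pos K).le (Nat.cast_nonneg _)) (one_le_pow₀ one_le_two)).trans
      (mul_le_mul (polarR_le_rpow K ha ha1) hw (Nat.cast_nonneg _) (by positivity))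
  have hl := Real.log_le_log (hR_pos K) hR'
  rw [Real.log_mul (by positivity) (by positivity), Real.log_mul (by positivity) (by positivity),
    Real.log_mul two_ne_zero (by positivity), Real.log_mul two_ne_zero (by positivity),
    Real.log_rpow hd0, Real.log_pow, Real.log_pow, log_absR, ← hndef] at hl
  have h2 := Real.log_two_lt_d9
  have hln := Real.log_le_sub_one_of_pos (show 0 < n by linarith)
  have hla := Real.log_le_sub_one_of_pos (show 0 < 1 + 1 / a by positivity)
  push_cast at hl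
  nlinarith [mul_le_mul_of_nonneg_left hla (show 0 ≤ n by linarith)]

/-- `1 / starkC n` grows linearly. -/
theorem inv_starkC_le {n : ℕ} (hn : 1 ≤ n) : 1 / starkC n ≤
    100 / 7 * (49 + 8 / 3 * (|logR 5| + |logC 5| + 2 * eulerConst 5)) * n := by
  have hn' : (1 : ℝ) ≤ n := Nat.one_le_cast.2 hn
  have hX : 0 ≤ |logR 5| + |logC 5| + 2 * eulerConst 5 := by
    have : 0 ≤ eulerConst 5 :=
      mul_nonneg zero_le_two (tsum_nonneg fun m => Real.rpow_nonneg (Nat.cast_nonneg _) _)
    positivity
  have hA := starkA_nonneg n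
  rw [starkC, one_div_div, starkA, growth]
  nlinarith

theorem log_le_linear {b L : ℝ} (hb : 0 < b) (hL : 0 < L) : Real.log L ≤ b * L + (-Real.log b) := by
  have h := Real.log_le_sub_one_of_pos (mul_pos hb hL)
  rw [Real.log_mul hb.ne' hL.ne'] at h
  linarith

theorem log_gammaC_ge (n : ℕ) : -(13 * (n : ℝ)) ≤ Real.log (gammaC n) := by
  have h2 := Real.log_two_lt_d9
  have hπ := Real.pi_lt_d2
  have he := Real.exp_one_lt_d9
  have hn : (0 : ℝ) ≤ n := Nat.cast_nonneg n
  rw [gammaC, Real.log_div (Real.exp_pos _).ne' (by positivity), Real.log_exp, Real.log_pow]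
  have hpe : π * Real.exp 1 ≤ 12 := by nlinarith [Real.pi_pos, Real.exp_pos 1]
  nlinarith [mul_le_mul_of_nonneg_right hpe hn, mul_le_mul_of_nonneg_left h2.le hn]

/-- **`log (h R) ≥ (1/2 - b) D - C(b) n`** for Galois fields. -/
theorem exists_log_hR_ge {b : ℝ} (hb : 0 < b) :
    ∃ C : ℝ, ∀ (F : Type u) [Field F] [NumberField F] [IsGalois ℚ F],
      (1 / 2 - b) * logDiscr F - C * finrank ℚ F ≤ Real.log (hR F) := by
  set e := min (b / 3) (1 / 4) with hedef
  have he : 0 < e := lt_min (by linarith) (by norm_num)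
  have he4 : e ≤ 1 / 4 := min_le_right _ _
  have heb : 3 * e ≤ b := by linarith [min_le_left (b / 3) (1 / 4 : ℝ)]
  obtain ⟨c, hc, hsiegel⟩ := FA.BSDegree.exists_hR_lower.{u} 2 he
  set X := 100 / 7 * (49 + 8 / 3 * (|logR 5| + |logC 5| + 2 * eulerConst 5))
  set C₁ := X + 1 + (-Real.log e) + 16
  set C₂ := |Real.log (c * e ^ 2 / 64)| + 16
  refine ⟨max C₁ C₂, fun F _ _ _ => ?_⟩
  have hn := one_le_finrank_cast F
  set n : ℝ := (finrank ℚ F : ℝ) with hndef
  have hn0 : 0 ≤ n := by linarith
  set D := logDiscr F with hDdef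
  have hD : 0 ≤ D := logDiscr_nonneg F
  have hL := one_le_size (K := F)
  have hsize : size F = 1 + D := rfl
  set η := starkC (finrank ℚ F) / size F with hη
  have hη0 : 0 < η := div_pos (starkC_pos _) (by linarith)
  have hη3 : η ≤ 1 / 300 := starkC_div_le hL _
  have hηD : η * D ≤ 1 / 300 := by
    have h := starkC_div_le (le_refl (1 : ℝ)) (finrank ℚ F)
    rw [div_one] at h
    refine (mul_le_mul_of_nonneg_left (show D ≤ size F by linarith) hη0.le).trans ?_
    rwa [hη, div_mul_cancel₀ _ (by linarith : size F ≠ 0)]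
  -- the lower bound from a point `x` of the zone
  have hpoint : ∀ x : ℝ, 1 - η ≤ x → x < 1 → 0 ≤ xiR F x →
      Real.log (1 - x) + D / 2 - 14 * n ≤ Real.log (hR F) := fun x hx hx1 h0 => by
    have hx0 : 0 < x := by linarith
    have h := Real.log_le_log ?_ (hR_lower F hx0 hx1 h0)
    swap
    · exact mul_pos (mul_pos (mul_pos hx0 (by linarith)) (gammaC_pos _))
        (Real.rpow_pos_of_pos (zero_lt_one.trans_le (one_le_absR F)) _)
    change Real.log (x * (1 - x) * gammaC (finrank ℚ F) * _) ≤ _ at h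
    rw [Real.log_mul (mul_ne_zero (mul_ne_zero hx0.ne' (by linarith)) (gammaC_pos _).ne')
        (Real.rpow_pos_of_pos (zero_lt_one.trans_le (one_le_absR F)) _).ne',
      Real.log_mul (mul_ne_zero hx0.ne' (by linarith)) (gammaC_pos _).ne',
      Real.log_mul hx0.ne' (by linarith), Real.log_rpow (zero_lt_one.trans_le (one_le_absR F)),
      log_absR, ← hDdef] at h
    have hg := log_gammaC_ge (finrank ℚ F)
    have hlx : -(1 / 2 : ℝ) ≤ Real.log x := by
      have h1 := Real.one_sub_inv_le_log_of_pos hx0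
      have h2 : x⁻¹ ≤ 3 / 2 := by
        rw [inv_le_comm₀ hx0 (by norm_num)]; linarith
      linarith
    nlinarith [mul_le_mul_of_nonneg_right hx hD]
  by_cases hex : ∃ β ∈ Icc (1 - η) 1, xiFun F ((β : ℝ) : ℂ) = 0
  · obtain ⟨β, hβ, hz⟩ := hex
    have hβ0 : 0 < β := by linarith [hβ.1]
    have hβ1 : β < 1 := lt_of_le_of_ne hβ.2 fun h1 => by
      rw [h1, Complex.ofReal_one, xiFun_one] at hz
      exact (polarR_pos F).ne' (Complex.ofReal_eq_zero.1 hz)
    obtain ⟨Q, hQ, hzQ, -⟩ := exists_quadratic_subfield hβ0 hβ1 hz (zero_simple F hβ hz)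
    have hxF : xiR F β = 0 := by rwa [xiFun_ofReal, Complex.ofReal_eq_zero] at hz
    have hxQ : xiR Q β = 0 := by rwa [xiFun_ofReal, Complex.ofReal_eq_zero] at hzQ
    have h1 := polarR_le_of_zero Q (by linarith [hβ.1]) hβ1.le hxQ
    have h2 := hsiegel Q hQ
    rw [hQ] at h1
    have h3 : hR Q ≤ 8 * polarR Q := by
      rw [hR_eq]
      have hw : (Units.torsionOrder Q : ℝ) ≤ 8 := by
        have := FA.ConductorDiscr.torsionOrder_le Q
        rw [hQ] at this
        exact_mod_cast this
      refine (div_le_self (by have := polarR_pos Q; positivity) (one_le_pow₀ one_le_two)).trans ?_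
      rw [mul_comm]
      exact mul_le_mul_of_nonneg_right hw (polarR_pos Q).le
    set dQ := |((discr Q : ℤ) : ℝ)| with hdQ
    have hQ1 : 1 ≤ dQ := one_le_absR Q
    have hQ0 : 0 < dQ := zero_lt_one.trans_le hQ1
    -- `L_Q ≤ dQ ^ e / e`
    have hLQ : size Q ≤ dQ ^ e / e := by
      have h4 := Real.log_le_sub_one_of_pos (Real.rpow_pos_of_pos hQ0 e)
      rw [Real.log_rpow hQ0, hdQ, log_absR] at h4
      rw [show size Q = 1 + logDiscr Q from rfl, le_div_iff₀ he]
      linarith
    have h4 : c * e ^ 2 / 64 * dQ ^ (-(3 * e)) ≤ 1 - β := by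
      have hLQ1 := one_le_size (K := Q)
      have h5 : c * dQ ^ (1 / 2 - e) ≤ (1 - β) * (64 / e ^ 2 * (dQ ^ (1 / 2 - e) * dQ ^ (3 * e))) := by
        refine h2.trans (h3.trans ((mul_le_mul_of_nonneg_left h1 (by norm_num)).trans ?_))
        rw [mul_left_comm]
        refine mul_le_mul_of_nonneg_left ?_ (by linarith)
        calc 8 * (2 * Real.sqrt dQ * (2 * size Q) ^ 2)
            ≤ 8 * (2 * Real.sqrt dQ * (2 * (dQ ^ e / e)) ^ 2) := by gcongr
          _ = 64 / e ^ 2 * (dQ ^ (1 / 2 - e) * dQ ^ (3 * e)) := by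
              rw [Real.sqrt_eq_rpow, ← Real.rpow_add hQ0, show (1 / 2 : ℝ) - e + 3 * e = 1 / 2 + (e + e) by ring,
                Real.rpow_add hQ0, Real.rpow_add hQ0]
              ring
      have h6 : c ≤ (1 - β) * (64 / e ^ 2) * dQ ^ (3 * e) := by
        refine le_of_mul_le_mul_right ?_ (Real.rpow_pos_of_pos hQ0 (1 / 2 - e))
        exact h5.trans (le_of_eq (by ring))
      rw [Real.rpow_neg hQ0.le, ← div_eq_mul_inv, div_le_iff₀ (Real.rpow_pos_of_pos hQ0 _)]
      have h7 := mul_le_mul_of_nonneg_right h6 (show 0 ≤ e ^ 2 / 64 by positivity)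
      refine le_of_eq_of_le (by ring) (h7.trans_eq ?_)
      field_simp
    have hQF : Real.log dQ ≤ D := by
      obtain ⟨-, hsz⟩ := sqrt_discr_quadratic_le F hQ
      rw [hdQ, log_absR]
      linarith [show size Q = 1 + logDiscr Q from rfl]
    have h8 := Real.log_le_log (by positivity) h4
    rw [Real.log_mul (by positivity) (Real.rpow_pos_of_pos hQ0 _).ne', Real.log_rpow hQ0] at h8
    have h9 := hpoint β hβ.1 hβ1 hxF.ge
    have hCn : C₂ * n ≤ max C₁ C₂ * n := mul_le_mul_of_nonneg_right (le_max_right _ _) hn0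
    have habs : |Real.log (c * e ^ 2 / 64)| ≤ |Real.log (c * e ^ 2 / 64)| * n :=
      le_mul_of_one_le_right (abs_nonneg _) hn
    have h10 := neg_abs_le (Real.log (c * e ^ 2 / 64))
    have h11 := mul_le_mul_of_nonneg_left hQF (show 0 ≤ 3 * e by linarith)
    have h12 := mul_le_mul_of_nonneg_right heb hD
    simp only [C₂, add_mul] at hCn
    linarith
  · push Not at hex
    have h := hpoint (1 - η) le_rfl (by linarith)
      (xiR_pos_of_no_zero F (by linarith) fun y hy => hex y hy).le
    rw [sub_sub_cancel, hη, Real.log_div (starkC_pos _).ne' (by linarith)] at h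
    have hC := inv_starkC_le (n := finrank ℚ F) finrank_pos
    rw [← hndef] at hC
    change _ ≤ X * n at hC
    have hlc := Real.log_le_sub_one_of_pos (one_div_pos.2 (starkC_pos (finrank ℚ F)))
    rw [one_div, Real.log_inv, ← one_div] at hlc
    have hlL := log_le_linear he (show 0 < size F by linarith)
    rw [hsize] at hlL h
    have hCn : C₁ * n ≤ max C₁ C₂ * n := mul_le_mul_of_nonneg_right (le_max_left _ _) hn0
    have hle : -Real.log e ≤ (-Real.log e) * n := le_mul_of_one_le_right
      (neg_nonneg.2 (Real.log_nonpos he.le (by linarith))) hn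
    have h12 := mul_le_mul_of_nonneg_right heb hD
    have h13 : 0 ≤ e * D := mul_nonneg he.le hD
    simp only [C₁, add_mul] at hCn
    linarith

end FA.StarkEff
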